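import Fermat.Agent.Entry.Other.Main
import Fermat.Agent.Entry.Assembly.Wiring
import Fermat.Agent.Entry.Assembly.LowerSqNeg

/-!
# The entry from the counts and the case `q ≡ 1`
-/

set_option autoImplicit false

noncomputable section

namespace FLTAgent.Entry

/-- The entry from the two counts of fixed classes and the case `q ≡ 1`. -/
theorem targetEntry_of_counts (hB : TargetFixedBound) (hO : TargetOldImage)
    (hone : TargetLowerSqOne) : ModLift.TargetEntry :=
  targetEntry_of (targetLowerSqNeg_of hB hO targetFixedPair) hone Other.targetLowerSqOther

end FLTAgent.Entry
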