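import Fermat.Agent.LevelRaise.Transfer
import Fermat.Agent.CuspForms.EigenChar
import Fermat.Agent.EigenReps.Residual
import Fermat.Prelude.Def_CuspForm_Newforms

/-!
# The good eigenvalues of an eigenform at a multiple of its level
-/

set_option autoImplicit false
set_option linter.style.haveILetI false

noncomputable section

open CongruenceSubgroup ModularFormClass
open scoped MatrixGroups

namespace FLTAgent.Entry.Other

variable {N N' : ℕ} [NeZero N] [NeZero N']

/-- A cusp form seen at a multiple of its level. -/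
def raiseLevel (h : N ∣ N') (f : CuspForm (Gamma0 N) 2) : CuspForm (Gamma0 N') 2 where
  toFun := f
  slash_action_eq' γ hγ := SlashInvariantFormClass.slash_action_eq f γ
    (Subgroup.map_mono (LevelRaise.Gamma0_le h) hγ)
  holo' := CuspFormClass.holo f
  zero_at_cusps' {c} hc := CuspFormClass.zero_at_cusps f (by
    rw [Subgroup.IsArithmetic.isCusp_iff_isCusp_SL2Z] at hc ⊢; exact hc)

theorem coe_raiseLevel (h : N ∣ N') (f : CuspForm (Gamma0 N) 2) :
    ⇑(raiseLevel h f) = ⇑f := rfl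

/-- The good operators of a multiple of the level act on an eigenform by its eigenvalues. -/
theorem exists_old_character (h : N ∣ N') {g : CuspForm (Gamma0 N) 2}
    (hg : g.IsNormalizedEigenform) (S : Set ℕ) (hS : ∀ q : ℕ, q.Prime → q ∣ N' → q ∈ S) :
    ∃ ψ : CuspForm.heckeAlgebra N' 2 S →+* ℂ,
      ∀ (ℓ : ℕ) (hℓ : ℓ.Prime) (hℓN : ¬ ℓ ∣ N') (hℓS : ℓ ∉ S),
        ψ (CuspForm.heckeAlgebra.T hℓ hℓN hℓS) = qCoeff g ℓ := by
  set F := raiseLevel h g
  have hg0 : g ≠ 0 := hg.ne_zero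
  have hF : F ≠ 0 := fun e => hg0 (by
    apply DFunLike.coe_injective
    rw [← coe_raiseLevel h g]
    show ⇑F = _
    rw [e]
    rfl)
  have hT : ∀ (ℓ : ℕ) (hℓ : ℓ.Prime) (hℓN : ¬ ℓ ∣ N'),
      (CuspForm.heckeTLin 2 hℓ hℓN) F = qCoeff g ℓ • F := by
    intro ℓ hℓ hℓN
    have hℓ0 : ¬ ℓ ∣ N := fun e => hℓN (e.trans h)
    have h1 := CuspForms.heckeGen_apply_eigen hg ℓ hℓ
    rw [CuspForms.heckeGen, dif_neg hℓ0] at h1
    have h2 := congrArg (fun f : CuspForm (Gamma0 N) 2 => (f : UpperHalfPlane → ℂ)) h1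
    simp only [CuspForm.heckeAlgebra.coe_T, FunLike.coe_smul] at h2
    apply DFunLike.coe_injective
    rw [FunLike.coe_smul, coe_raiseLevel]
    exact h2
  have key : ∀ t : CuspForm.heckeAlgebra N' 2 S, ∃ c : ℂ,
      (t : Module.End ℂ (CuspForm (Gamma0 N') 2)) F = c • F := by
    rintro ⟨t, ht⟩
    induction ht using Algebra.adjoin_induction with
    | mem x hx =>
      rcases hx with ⟨l, hl, hlN, -, rfl⟩ | ⟨q, hqN, hq, hqS, rfl⟩
      · exact ⟨_, hT l hl hlN⟩
      · exact absurd (hS q hq hqN) hqS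
    | algebraMap c =>
      refine ⟨(c : ℂ), ?_⟩
      show (algebraMap ℤ (Module.End ℂ (CuspForm (Gamma0 N') 2)) c) F = _
      rw [eq_intCast, Module.End.intCast_apply, Int.cast_smul_eq_zsmul]
    | add x y hx hy ih ih' =>
      obtain ⟨a, ha⟩ := ih
      obtain ⟨b, hb⟩ := ih'
      exact ⟨a + b, by rw [LinearMap.add_apply, ha, hb, add_smul]⟩
    | mul x y hx hy ih ih' =>
      obtain ⟨a, ha⟩ := ih
      obtain ⟨b, hb⟩ := ih'
      exact ⟨a * b, by rw [Module.End.mul_apply, hb, map_smul, ha, smul_smul, mul_comm]⟩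
  choose c hc using key
  have huniq : ∀ (t : CuspForm.heckeAlgebra N' 2 S) (a : ℂ),
      (t : Module.End ℂ (CuspForm (Gamma0 N') 2)) F = a • F → c t = a := fun t a ha =>
    smul_left_injective ℂ hF ((hc t).symm.trans ha)
  refine ⟨{
    toFun := c
    map_one' := huniq 1 1 (by
      rw [OneMemClass.coe_one, Module.End.one_apply, one_smul])
    map_mul' := fun s t => huniq _ _ (by
      rw [MulMemClass.coe_mul, Module.End.mul_apply, hc t, map_smul, hc s, smul_smul, mul_comm])
    map_zero' := huniq 0 0 (by rw [ZeroMemClass.coe_zero, LinearMap.zero_apply, zero_smul])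
    map_add' := fun s t => huniq _ _ (by
      rw [AddMemClass.coe_add, LinearMap.add_apply, hc s, hc t, add_smul]) },
    fun ℓ hℓ hℓN hℓS => huniq _ _ (hT ℓ hℓ hℓN)⟩

end FLTAgent.Entry.Other
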