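import Fermat.Agent.EigenLattice.Extend
import Mathlib.NumberTheory.Padics.RingHoms
import Mathlib.RingTheory.TensorProduct.Free
import Mathlib.RingTheory.Ideal.MinimalPrime.Basic
import Mathlib.LinearAlgebra.FreeModule.PID
import Mathlib.Algebra.Module.Torsion.Free

/-!
# An integral character modulo `p` as the reduction of a `p`-adic one
-/

set_option autoImplicit false
set_option linter.style.haveILetI false
set_option maxHeartbeats 1000000

noncomputable section

open scoped Classical TensorProduct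
open IsLocalRing

namespace FLTAgent.Entry.Other

/-- A finite domain containing `ℤ_p` maps locally to a complete discrete valuation ring. -/
theorem exists_local_hom {p : ℕ} [hp : Fact p.Prime] (B : Type) [CommRing B] [IsDomain B]
    [Algebra ℤ_[p] B] [Module.Finite ℤ_[p] B] (hinj : Function.Injective (algebraMap ℤ_[p] B)) :
    ∃ (O : Type) (_ : CommRing O) (_ : IsDomain O) (_ : IsDiscreteValuationRing O)
      (_ : IsAdicComplete (maximalIdeal O) O) (_ : Finite (ResidueField O)) (_ : CharZero O),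
      (p : O) ∈ maximalIdeal O ∧ ∃ ι : B →+* O, ∀ x, ¬ IsUnit x → ι x ∈ maximalIdeal O := by
  haveI : Finite (ResidueField ℤ_[p]) := Finite.of_equiv _ PadicInt.residueField.symm.toEquiv
  haveI : FaithfulSMul ℤ_[p] B := (faithfulSMul_iff_algebraMap_injective _ _).2 hinj
  haveI : Module.IsTorsionFree ℤ_[p] B := inferInstance
  haveI : Algebra.IsAlgebraic ℤ_[p] B := Algebra.IsIntegral.isAlgebraic
  let K := FractionRing ℤ_[p]
  let Kb := AlgebraicClosure K
  haveI : CharZero K := charZero_of_injective_algebraMap (IsFractionRing.injective ℤ_[p] K)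
  have hKb : Function.Injective (algebraMap ℤ_[p] Kb) := by
    rw [IsScalarTower.algebraMap_eq ℤ_[p] K Kb, RingHom.coe_comp]
    exact (algebraMap K Kb).injective.comp (IsFractionRing.injective ℤ_[p] K)
  haveI : FaithfulSMul ℤ_[p] Kb := (faithfulSMul_iff_algebraMap_injective ℤ_[p] Kb).2 hKb
  let lift : B →ₐ[ℤ_[p]] Kb := IsAlgClosed.lift
  obtain ⟨gen, hgen⟩ := (inferInstance : Module.Finite ℤ_[p] B).fg_top
  set L := IntermediateField.adjoin K (lift '' (gen : Set B))
  haveI : FiniteDimensional K L :=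
    IntermediateField.finiteDimensional_adjoin fun x _ => Algebra.IsIntegral.isIntegral x
  letI : Algebra ℤ_[p] L := ((algebraMap K L).comp (algebraMap ℤ_[p] K)).toAlgebra
  haveI : IsScalarTower ℤ_[p] K L := IsScalarTower.of_algebraMap_eq fun _ => rfl
  obtain ⟨hdvr, -, hfin, hloc, hO⟩ := EigenLattice.exists_integers ℤ_[p] L
  haveI := hdvr
  haveI := hfin
  haveI := hloc
  have hmem : ∀ s : B, lift s ∈ L := by
    intro s
    have hs : s ∈ Submodule.span ℤ_[p] (gen : Set B) := hgen ▸ Submodule.mem_top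
    induction hs using Submodule.span_induction with
    | mem x hx => exact IntermediateField.subset_adjoin K _ ⟨x, hx, rfl⟩
    | zero => rw [map_zero]; exact zero_mem _
    | add x y _ _ hx hy => rw [map_add]; exact add_mem hx hy
    | smul c x _ hx =>
      rw [map_smul, Algebra.smul_def, IsScalarTower.algebraMap_apply ℤ_[p] K Kb]
      exact mul_mem (L.algebraMap_mem (algebraMap ℤ_[p] K c)) hx
  let liftL : B →+* L := lift.toRingHom.codRestrict L hmem
  have hcomm : ∀ c : ℤ_[p], liftL (algebraMap ℤ_[p] B c) = algebraMap ℤ_[p] L c := fun c =>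
    Subtype.ext ((lift.commutes c).trans (IsScalarTower.algebraMap_apply ℤ_[p] K Kb c))
  let liftA : B →ₐ[ℤ_[p]] L := { liftL with commutes' := hcomm }
  have hint : ∀ s : B, liftA s ∈ integralClosure ℤ_[p] L := fun s =>
    (Algebra.IsIntegral.isIntegral (R := ℤ_[p]) s).map liftA
  let j : B →ₐ[ℤ_[p]] integralClosure ℤ_[p] L := liftA.codRestrict _ hint
  have hjinj : Function.Injective j.toRingHom := by
    rw [RingHom.injective_iff_ker_eq_bot]
    refine Ideal.eq_bot_of_comap_eq_bot (R := ℤ_[p]) ?_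
    rw [RingHom.comap_ker, ← RingHom.injective_iff_ker_eq_bot]
    intro u v huv
    apply hO
    rw [← j.commutes, ← j.commutes]
    exact huv
  haveI : IsLocalHom j.toRingHom := by
    refine RingHom.IsIntegral.isLocalHom (RingHom.IsIntegral.tower_top
      (algebraMap ℤ_[p] B) j.toRingHom ?_) hjinj
    rw [show j.toRingHom.comp (algebraMap ℤ_[p] B) =
      algebraMap ℤ_[p] (integralClosure ℤ_[p] L) from j.comp_algebraMap]
    exact fun y => Algebra.IsIntegral.isIntegral y
  haveI : IsAdicComplete (maximalIdeal (integralClosure ℤ_[p] L)) (integralClosure ℤ_[p] L) :=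
    IsLocalRing.isAdicComplete_of_module_finite (𝒪 := ℤ_[p])
  haveI : Finite (ResidueField (integralClosure ℤ_[p] L)) :=
    IsLocalRing.ResidueField.finite_of_finite ‹_›
  haveI : CharZero (integralClosure ℤ_[p] L) := charZero_of_injective_algebraMap hO
  refine ⟨integralClosure ℤ_[p] L, inferInstance, inferInstance, inferInstance, inferInstance,
    inferInstance, inferInstance, ?_, j.toRingHom,
    fun x hx => (mem_maximalIdeal _).2 fun hu => hx (IsLocalHom.map_nonunit x hu)⟩
  rw [← map_natCast (algebraMap ℤ_[p] (integralClosure ℤ_[p] L))]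
  exact map_nonunit (algebraMap ℤ_[p] (integralClosure ℤ_[p] L)) _ (by
    rw [PadicInt.maximalIdeal_eq_span_p]; exact Ideal.mem_span_singleton_self _)

/-- A finite torsion-free ring over `ℤ` with a character to `ℤ/p` maps to a complete discrete
valuation ring compatibly with it. -/
theorem exists_padic_lift {p : ℕ} [hp : Fact p.Prime] {R : Type} [CommRing R]
    [Module.Finite ℤ R] [IsAddTorsionFree R] (φ : R →+* ZMod p) :
    ∃ (O : Type) (_ : CommRing O) (_ : IsDomain O) (_ : IsDiscreteValuationRing O)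
      (_ : IsAdicComplete (maximalIdeal O) O) (_ : Finite (ResidueField O)) (_ : CharZero O),
      (p : O) ∈ maximalIdeal O ∧ ∃ ι : R →+* O, ∀ x, φ x = 0 → ι x ∈ maximalIdeal O := by
  haveI : Module.Free ℤ R := Module.free_of_finite_type_torsion_free'
  let A := ℤ_[p] ⊗[ℤ] R
  set ψ : A →+* ZMod p := (Algebra.TensorProduct.lift (PadicInt.toZMod (p := p)).toIntAlgHom
    φ.toIntAlgHom (fun _ _ => Commute.all _ _)).toRingHom with hψdef
  have hψ : ∀ x : R, ψ ((1 : ℤ_[p]) ⊗ₜ[ℤ] x) = φ x := fun x => by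
    rw [hψdef]
    exact (Algebra.TensorProduct.lift_tmul _ _ _ _ _).trans
      ((congrArg (· * φ x) (map_one (PadicInt.toZMod (p := p)))).trans (one_mul _))
  haveI : (RingHom.ker ψ).IsPrime := RingHom.ker_isPrime ψ
  obtain ⟨P, hP, hPle⟩ := Ideal.exists_minimalPrimes_le (bot_le : ⊥ ≤ RingHom.ker ψ)
  haveI : P.IsPrime := hP.1.1
  haveI : IsDomain (A ⧸ P) := Ideal.Quotient.isDomain P
  have hinj : Function.Injective (algebraMap ℤ_[p] (A ⧸ P)) := by
    rw [injective_iff_map_eq_zero]
    intro z hz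
    rw [IsScalarTower.algebraMap_apply ℤ_[p] A (A ⧸ P), Ideal.Quotient.algebraMap_eq,
      Ideal.Quotient.eq_zero_iff_mem] at hz
    by_contra hz0
    have hnzd : algebraMap ℤ_[p] A z ∈ nonZeroDivisors A := by
      rw [mem_nonZeroDivisors_iff_right]
      intro x hx
      rw [mul_comm, ← Algebra.smul_def] at hx
      exact (smul_eq_zero.mp hx).resolve_left hz0
    exact Set.disjoint_right.mp (Ideal.disjoint_nonZeroDivisors_of_mem_minimalPrimes hP) hnzd hz
  haveI : Module.Finite ℤ_[p] (A ⧸ P) := Module.Finite.of_surjective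
    (Ideal.Quotient.mkₐ ℤ_[p] P).toLinearMap Ideal.Quotient.mk_surjective
  obtain ⟨O, i1, i2, i3, i4, i5, i6, hpO, ι, hι⟩ := exists_local_hom (p := p) (A ⧸ P) hinj
  refine ⟨O, i1, i2, i3, i4, i5, i6, hpO, (ι.comp (Ideal.Quotient.mk P)).comp
    (Algebra.TensorProduct.includeRight : R →ₐ[ℤ] A).toRingHom, fun x hx => hι _ fun hu => ?_⟩
  have hle : P ≤ RingHom.ker ψ := hPle
  have h1 : IsUnit (Ideal.Quotient.lift P ψ (fun a ha => hle ha)
      (Ideal.Quotient.mk P ((1 : ℤ_[p]) ⊗ₜ[ℤ] x))) := hu.map _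
  have h2 : IsUnit (φ x) := hψ x ▸ (h1 : IsUnit (ψ ((1 : ℤ_[p]) ⊗ₜ[ℤ] x)))
  exact not_isUnit_zero (hx ▸ h2)

end FLTAgent.Entry.Other
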