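import Fermat.Agent.Lowering.P6.Tame
import Fermat.Agent.Deformation.Bridge
import Mathlib.Algebra.CharP.Lemmas
import Mathlib.RingTheory.Ideal.Quotient.Basic

/-!
# Tame inertia for residually unipotent representations

A Frobenius element raises a generator `A` of tame inertia to the power `q`. When `A` is residually
unipotent and `q² - 1` is a unit, comparing traces and determinants shows that `A` is unipotent.
-/

set_option autoImplicit false
set_option linter.style.haveILetI false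
set_option linter.unusedSectionVars false

noncomputable section

open scoped Classical
open IsLocalRing Matrix

namespace FLTAgent.Entry.Other

local notation "QA" => AlgebraicClosure ℚ
local notation "GG" => (AlgebraicClosure ℚ ≃ₐ[ℚ] AlgebraicClosure ℚ)
local notation "M2" => Matrix (Fin 2) (Fin 2)

section Algebra

variable {R : Type} [CommRing R]

theorem mul_self_eq (A : M2 R) : A * A = A.trace • A - A.det • 1 := by
  ext i j
  fin_cases i <;> fin_cases j <;>
    simp [Matrix.mul_apply, Fin.sum_univ_two, Matrix.trace_fin_two, Matrix.det_fin_two] <;> ring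

theorem trace_pow_succ_succ (A : M2 R) (n : ℕ) :
    (A ^ (n + 2)).trace = A.trace * (A ^ (n + 1)).trace - A.det * (A ^ n).trace := by
  rw [show A ^ (n + 2) = A ^ n * (A * A) by rw [pow_add, pow_two], mul_self_eq, mul_sub,
    mul_smul_comm, mul_smul_comm, mul_one, ← pow_succ, Matrix.trace_sub, Matrix.trace_smul,
    Matrix.trace_smul]
  rfl

/-- The trace of a power to first order in `tr - 2`. -/
theorem trace_pow_approx {A : M2 R} (hd : A.det = 1) (n : ℕ) :
    ∃ c : R, (A ^ n).trace = 2 + (n : R) ^ 2 * (A.trace - 2) + (A.trace - 2) ^ 2 * c := by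
  induction n using Nat.twoStepInduction with
  | zero => exact ⟨0, by simp⟩
  | one => exact ⟨0, by simp⟩
  | more n h0 h1 =>
    obtain ⟨c0, e0⟩ := h0
    obtain ⟨c1, e1⟩ := h1
    refine ⟨((n + 1 : ℕ) : R) ^ 2 + A.trace * c1 - c0, ?_⟩
    rw [trace_pow_succ_succ, hd, e0, e1]
    push_cast
    ring

/-- Trace two and determinant one pass to powers. -/
theorem trace_det_pow {A : M2 R} (ht : A.trace = 2) (hd : A.det = 1) (n : ℕ) :
    (A ^ n).trace = 2 ∧ (A ^ n).det = 1 := by
  obtain ⟨c, hc⟩ := trace_pow_approx hd n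
  refine ⟨by rw [hc, ht]; ring, by rw [Matrix.det_pow, hd, one_pow]⟩

variable [IsLocalRing R]

/-- An element of the maximal ideal killed by a unit plus itself is zero. -/
theorem eq_zero_of_unit_mul {e u c : R} (hu : IsUnit u) (he : e ∈ maximalIdeal R)
    (h : u * e + e ^ 2 * c = 0) : e = 0 := by
  have h1 : IsUnit (u + e * c) := by
    by_contra hn
    have := sub_mem ((mem_maximalIdeal _).2 hn) (Ideal.mul_mem_right c _ he)
    rw [add_sub_cancel_right] at this
    exact (mem_maximalIdeal _).1 this hu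
  exact (h1.mul_right_eq_zero).1 (by linear_combination h)

/-- A residually unipotent matrix conjugate to its `q`-th power is unipotent when `q² - 1` is a
unit. -/
theorem trace_det_of_conj {A B : M2 R} (hB : IsUnit B) {q : ℕ} (hq : 0 < q)
    (hu : IsUnit ((q : R) ^ 2 - 1)) (ht : A.trace - 2 ∈ maximalIdeal R)
    (hd : A.det - 1 ∈ maximalIdeal R) (h : B * A = A ^ q * B) :
    A.trace = 2 ∧ A.det = 1 := by
  obtain ⟨B, rfl⟩ := hB
  have hAq : A ^ q = (B : M2 R) * A * (↑B⁻¹ : M2 R) := by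
    rw [h, mul_assoc, Units.mul_inv, mul_one]
  have hdet : A.det ^ q = A.det := by
    rw [← Matrix.det_pow, hAq, Matrix.det_units_conj]
  have hq1 : IsUnit ((q : R) - 1) := by
    rw [show (q : R) ^ 2 - 1 = ((q : R) - 1) * ((q : R) + 1) by ring] at hu
    exact isUnit_of_mul_isUnit_left hu
  have hd1 : A.det = 1 := by
    have hr : residue R A.det = 1 := by
      rw [← sub_eq_zero, ← map_one (residue R), ← map_sub, residue_eq_zero_iff]
      exact hd
    have hunit : IsUnit A.det := by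
      by_contra hn
      rw [(residue_eq_zero_iff _).2 ((mem_maximalIdeal _).2 hn)] at hr
      exact zero_ne_one hr
    have hpow : A.det ^ (q - 1) = 1 := hunit.mul_left_cancel (by
      rw [← pow_succ', Nat.sub_add_cancel hq, hdet, mul_one])
    have hsum : IsUnit (∑ i ∈ Finset.range (q - 1), A.det ^ i) := by
      by_contra hn
      refine (mem_maximalIdeal _).1 ((residue_eq_zero_iff _).1 ?_) hq1
      have h0 := (residue_eq_zero_iff _).2 ((mem_maximalIdeal _).2 hn)
      simp only [map_sum, map_pow, hr, one_pow, Finset.sum_const, Finset.card_range,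
        nsmul_eq_mul, mul_one] at h0
      rw [map_sub, map_natCast, map_one, ← Nat.cast_one, ← Nat.cast_sub hq]
      exact h0
    have hgeo := geom_sum_mul A.det (q - 1)
    rw [hpow, sub_self] at hgeo
    exact sub_eq_zero.1 (hsum.mul_right_eq_zero.1 hgeo)
  refine ⟨sub_eq_zero.1 ?_, hd1⟩
  obtain ⟨c, hc⟩ := trace_pow_approx hd1 q
  have htr : (A ^ q).trace = A.trace := by rw [hAq, Matrix.trace_units_conj]
  refine eq_zero_of_unit_mul hu ht (c := c) ?_
  linear_combination -hc + htr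

theorem det_sub_one (A : M2 R) : (A - 1).det = A.det - A.trace + 1 := by
  simp [Matrix.det_fin_two, Matrix.trace_fin_two]
  ring

/-- Residually unipotent matrices have `p`-power order over an Artinian ring. -/
theorem exists_pow_prime_pow_eq_one {p : ℕ} (hp : p.Prime) (hpn : IsNilpotent (p : R))
    (hm : IsNilpotent (maximalIdeal R)) {A : M2 R} (ht : A.trace - 2 ∈ maximalIdeal R)
    (hd : A.det - 1 ∈ maximalIdeal R) : ∃ a : ℕ, A ^ p ^ a = 1 := by
  obtain ⟨m, hm⟩ := hm
  rw [Submodule.zero_eq_bot] at hm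
  set N := A - 1 with hN
  -- `N² = (tr A - 2) N + (tr A - det A - 1)`
  have hN2 : IsNilpotent N := by
    have hsq : N * N = N.trace • N - N.det • 1 := mul_self_eq N
    have hnil : ∀ x ∈ maximalIdeal R, IsNilpotent x := fun x hx =>
      ⟨m, by simpa [hm] using Ideal.pow_mem_pow hx m⟩
    have h1 : IsNilpotent N.trace := hnil _ (by
      rw [hN, Matrix.trace_sub, Matrix.trace_one, Fintype.card_fin]; exact_mod_cast ht)
    have h2 : IsNilpotent N.det := hnil _ (by
      rw [hN, det_sub_one]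
      have := sub_mem hd ht
      convert this using 1
      ring)
    have h3 : IsNilpotent (N * N) := by
      rw [hsq]
      refine Commute.isNilpotent_sub ((Commute.one_right _).smul_right _) ?_ ?_
      · rw [Algebra.smul_def]
        exact (Algebra.commute_algebraMap_left N.trace N).isNilpotent_mul_right (h1.map (algebraMap R (M2 R)))
      · rw [Algebra.smul_def]
        exact (Algebra.commute_algebraMap_left N.det (1 : M2 R)).isNilpotent_mul_right
          (h2.map (algebraMap R (M2 R)))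
    obtain ⟨k, hk⟩ := h3
    exact ⟨2 * k, by rw [pow_mul, pow_two]; exact hk⟩
  obtain ⟨k, hk⟩ := hN2
  obtain ⟨j, hj⟩ := hpn
  obtain ⟨r, hr⟩ := (Commute.one_left N).exists_add_pow_prime_pow_eq hp k
  rw [one_pow, pow_eq_zero_of_le (Nat.lt_pow_self hp.one_lt).le hk, add_zero, mul_one] at hr
  have hstep : ∀ b : ℕ, ∃ X : M2 R, (1 + N) ^ p ^ (k + b) = 1 + (p : M2 R) ^ (b + 1) * X := by
    intro b
    induction b with
    | zero => exact ⟨N * r, by rw [add_zero, hr, zero_add, pow_one, mul_assoc]⟩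
    | succ b ih =>
      obtain ⟨X, hX⟩ := ih
      obtain ⟨r', hr'⟩ := (Commute.one_left ((p : M2 R) ^ (b + 1) * X)).exists_add_pow_prime_eq hp
      have hc : Commute X ((p : M2 R) ^ (b + 1)) := ((Nat.cast_commute p X).symm).pow_right _
      obtain ⟨d, hd⟩ : (p : M2 R) ^ (b + 2) ∣ ((p : M2 R) ^ (b + 1) * X) ^ p := by
        rw [hc.symm.mul_pow, ← pow_mul]
        exact (pow_dvd_pow _ (by nlinarith [hp.two_le])).mul_right _
      refine ⟨d + X * r', ?_⟩
      rw [← add_assoc, pow_succ, pow_mul, hX, hr', one_pow, hd, mul_one, mul_add, add_assoc]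
      congr 2
      rw [pow_succ' _ (b + 1)]
      simp only [mul_assoc]
  obtain ⟨X, hX⟩ := hstep j
  refine ⟨k + j, ?_⟩
  rw [show A = 1 + N by rw [hN]; abel, hX,
    show (p : M2 R) ^ (j + 1) = algebraMap R (M2 R) ((p : R) ^ (j + 1)) by
      rw [map_pow, map_natCast],
    pow_succ, hj, zero_mul, map_zero, zero_mul, add_zero]

end Algebra

section Inertia

variable {O : Type} [CommRing O] [IsLocalRing O] [IsNoetherianRing O] [Finite (ResidueField O)]
  [IsHausdorff (maximalIdeal O) O]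

/-- **Residually unipotent inertia is unipotent** when `q ≢ ±1`. -/
theorem trace_det_inertia {p : ℕ} [hp : Fact p.Prime] (hpO : (p : O) ∈ maximalIdeal O)
    {r : GG →* M2 O} (hr : Deformation.MatCts r) {q : ℕ} (hq : q.Prime) (hqp : q ≠ p)
    (h1 : ¬ p ∣ q + 1) (h2 : ¬ p ∣ q - 1) {V : ValuationSubring QA} (hV : V.LiesOverPrime q)
    (hres : ∀ σ ∈ V.inertiaSubgroupIn ℚ,
      (r σ).trace - 2 ∈ maximalIdeal O ∧ (r σ).det - 1 ∈ maximalIdeal O)
    {σ : GG} (hσ : σ ∈ V.inertiaSubgroupIn ℚ) : (r σ).trace = 2 ∧ (r σ).det = 1 := by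
  obtain ⟨φ, hφ⟩ := Frobenius.exists_isFrobeniusAt V q hq hV
  obtain ⟨T, -⟩ := Lowering.P6.targetTameGen p q hp.out hq hqp V hV φ hφ
  have hID := Places.inertia_le_decomposition V
  suffices hall : ∀ n : ℕ, (r σ).trace - 2 ∈ maximalIdeal O ^ n ∧
      (r σ).det - 1 ∈ maximalIdeal O ^ n by
    have hz : ∀ x : O, (∀ n, x ∈ maximalIdeal O ^ n) → x = 0 := fun x hx =>
      IsHausdorff.haus ‹_› x fun n => by
        rw [SModEq.sub_mem, smul_eq_mul, Ideal.mul_top, sub_zero]; exact hx n
    exact ⟨sub_eq_zero.1 (hz _ fun n => (hall n).1), sub_eq_zero.1 (hz _ fun n => (hall n).2)⟩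
  suffices hsucc : ∀ n : ℕ, (r σ).trace - 2 ∈ maximalIdeal O ^ (n + 1) ∧
      (r σ).det - 1 ∈ maximalIdeal O ^ (n + 1) from fun n =>
    ⟨Ideal.pow_le_pow_right n.le_succ (hsucc n).1, Ideal.pow_le_pow_right n.le_succ (hsucc n).2⟩
  intro n
  set I := maximalIdeal O ^ (n + 1)
  haveI : Nontrivial (O ⧸ I) := Ideal.Quotient.nontrivial_iff.2 fun h =>
    (maximalIdeal.isMaximal O).ne_top (top_le_iff.1 (h ▸ Ideal.pow_le_self n.succ_ne_zero))
  haveI : IsLocalRing (O ⧸ I) :=
    IsLocalRing.of_surjective' (Ideal.Quotient.mk I) Ideal.Quotient.mk_surjective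
  haveI : Finite (O ⧸ maximalIdeal O) := ‹Finite (ResidueField O)›
  haveI : Finite (O ⧸ I) := Ideal.finite_quotient_pow (IsNoetherian.noetherian _) _
  set π := Ideal.Quotient.mk I
  have hmax : maximalIdeal (O ⧸ I) = (maximalIdeal O).map π := by
    refine le_antisymm (fun x hx => ?_) (Ideal.map_le_iff_le_comap.2 fun x hx => ?_)
    · obtain ⟨y, rfl⟩ := Ideal.Quotient.mk_surjective x
      exact Ideal.mem_map_of_mem π ((mem_maximalIdeal _).2 fun hu =>
        (mem_maximalIdeal _).1 hx (hu.map π))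
    · refine (mem_maximalIdeal _).2 fun hu => ?_
      obtain ⟨z, hz⟩ := hu.exists_right_inv
      obtain ⟨w, rfl⟩ := Ideal.Quotient.mk_surjective z
      rw [← map_mul, ← map_one π, Ideal.Quotient.eq] at hz
      have h1 := Ideal.pow_le_self n.succ_ne_zero hz
      have h2 := sub_mem (Ideal.mul_mem_right w _ hx) h1
      rw [sub_sub_cancel] at h2
      exact (Ideal.ne_top_iff_one _).1 (maximalIdeal.isMaximal O).ne_top h2
  have hm : IsNilpotent (maximalIdeal (O ⧸ I)) := ⟨n + 1, by
    rw [hmax, ← Ideal.map_pow, Ideal.map_quotient_self]; rfl⟩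
  have hpI : IsNilpotent (p : O ⧸ I) := ⟨n + 1, by
    rw [← map_natCast π, ← map_pow, Ideal.Quotient.eq_zero_iff_mem]
    exact Ideal.pow_mem_pow hpO _⟩
  let f : V.decompositionSubgroup ℚ →* GL (Fin 2) (O ⧸ I) :=
    MonoidHom.toHomUnits ((π.mapMatrix.toMonoidHom.comp r).comp
      (V.decompositionSubgroup ℚ).subtype)
  have hf : ∀ τ : V.decompositionSubgroup ℚ, (f τ : M2 (O ⧸ I)) = (r τ).map π := fun _ => rfl
  have hftr : ∀ τ : V.decompositionSubgroup ℚ, (f τ : M2 (O ⧸ I)).trace = π (r τ).trace :=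
    fun τ => by rw [hf, Matrix.trace_fin_two, Matrix.trace_fin_two, map_add]; rfl
  have hfdet : ∀ τ : V.decompositionSubgroup ℚ, (f τ : M2 (O ⧸ I)).det = π (r τ).det :=
    fun τ => by rw [hf]; exact (π.map_det _).symm
  have hfres : ∀ τ : V.decompositionSubgroup ℚ, (τ : GG) ∈ V.inertiaSubgroupIn ℚ →
      (f τ : M2 (O ⧸ I)).trace - 2 ∈ maximalIdeal (O ⧸ I) ∧
        (f τ : M2 (O ⧸ I)).det - 1 ∈ maximalIdeal (O ⧸ I) := fun τ hτ => by
    rw [hftr, hfdet, ← map_ofNat π 2, ← map_one π, ← map_sub, ← map_sub, hmax]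
    exact ⟨Ideal.mem_map_of_mem π (hres _ hτ).1, Ideal.mem_map_of_mem π (hres _ hτ).2⟩
  have hlev : Lowering.P1.LevC (V.decompositionSubgroup ℚ).subtype f := by
    obtain ⟨L, hL, h⟩ := hr (n + 1)
    refine ⟨L, hL, fun g s hs => ?_⟩
    have h3 := h s (fun x hx => (IntermediateField.mem_fixingSubgroup_iff L _).1 hs x hx)
    have h4 : f s = 1 := Units.ext (by
      rw [hf, Units.val_one, ← Matrix.map_one π (map_zero π) (map_one π)]
      ext i j
      rw [Matrix.map_apply, Matrix.map_apply, Ideal.Quotient.eq, ← Matrix.sub_apply]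
      exact h3 i j)
    rw [map_mul, h4, mul_one]
  obtain ⟨hgen, -, hrel⟩ := T.gen f hlev fun τ hτ => by
    obtain ⟨a, ha⟩ :=
      exists_pow_prime_pow_eq_one hp.out hpI hm (hfres τ hτ).1 (hfres τ hτ).2
    exact ⟨a, Units.ext (by rw [Units.val_pow_eq_pow_val, ha, Units.val_one])⟩
  have hrel' : (f T.φ : M2 (O ⧸ I)) * (f T.σ : M2 (O ⧸ I)) =
      (f T.σ : M2 (O ⧸ I)) ^ q * (f T.φ : M2 (O ⧸ I)) := by
    rw [← Units.val_pow_eq_pow_val, ← Units.val_mul, ← Units.val_mul, ← hrel, inv_mul_cancel_right]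
  have hunit : IsUnit ((q : O ⧸ I) ^ 2 - 1) := by
    have h : IsUnit ((q : O) ^ 2 - 1) := by
      by_contra hn
      haveI : CharP (ResidueField O) p := (CharP.charP_iff_prime_eq_zero hp.out).mpr (by
        rw [← map_natCast (residue O)]; exact (residue_eq_zero_iff _).2 hpO)
      have h0 := (residue_eq_zero_iff _).2 ((mem_maximalIdeal _).2 hn)
      rw [show (q : O) ^ 2 - 1 = ((q : O) - 1) * ((q : O) + 1) by ring, map_mul, mul_eq_zero,
        map_sub, map_add, map_natCast, map_one, ← Nat.cast_one, ← Nat.cast_sub hq.one_le,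
        ← Nat.cast_add, CharP.cast_eq_zero_iff _ p, CharP.cast_eq_zero_iff _ p] at h0
      exact h0.elim h2 h1
    simpa using h.map π
  obtain ⟨hσt, hσd⟩ := trace_det_of_conj (f T.φ).isUnit hq.pos hunit
    (hfres _ T.σ_mem).1 (hfres _ T.σ_mem).2 hrel'
  haveI : Finite (M2 (O ⧸ I)) := inferInstanceAs (Finite (Fin 2 → Fin 2 → O ⧸ I))
  obtain ⟨i, hi⟩ := (mem_powers_iff_mem_zpowers).2 (hgen ⟨σ, hID hσ⟩ hσ)
  have hval : (f ⟨σ, hID hσ⟩ : M2 (O ⧸ I)) = (f T.σ : M2 (O ⧸ I)) ^ i := by
    rw [← hi, Units.val_pow_eq_pow_val]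
  obtain ⟨e1, e2⟩ := trace_det_pow hσt hσd i
  constructor <;> rw [← Ideal.Quotient.eq_zero_iff_mem, map_sub, sub_eq_zero]
  · rw [map_ofNat]
    exact (hftr ⟨σ, hID hσ⟩).symm.trans (hval ▸ e1)
  · rw [map_one]
    exact (hfdet ⟨σ, hID hσ⟩).symm.trans (hval ▸ e2)

end Inertia

end FLTAgent.Entry.Other
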