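import Fermat.Agent.Entry.Assembly.FixedPair
import Fermat.Agent.Entry.Other.Tame
import Fermat.Agent.Entry.Other.Padic
import Fermat.Agent.Entry.Other.Oldform
import Fermat.Agent.EigenLattice.Assembly
import Fermat.Agent.Carayol.Bound
import Fermat.Agent.CuspForms.Lifting
import Fermat.Agent.CuspForms.IntegralStructure
import Fermat.Agent.EigenLattice.MultOne

/-!
# Lowering `q²` for `q ≢ ±1` modulo `p`

The eigen lattice representation of a newform congruent to the system is unipotent on inertia at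
`q` by the tame relation, so by Carayol `q²` does not divide the level of the newform.
-/

set_option autoImplicit false
set_option linter.style.haveILetI false
set_option linter.unusedSectionVars false
set_option synthInstance.maxHeartbeats 400000
set_option maxHeartbeats 1000000

noncomputable section

open scoped Classical
open IsLocalRing Matrix Polynomial CongruenceSubgroup

namespace FLTAgent.Entry.Other

open FLTAgent.Lowering.P7 (Seen)

local notation "QA" => AlgebraicClosure ℚ
local notation "GG" => (AlgebraicClosure ℚ ≃ₐ[ℚ] AlgebraicClosure ℚ)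
local notation "M2" => Matrix (Fin 2) (Fin 2)

theorem trace_det_of_sq_eq {k : Type} [Field k] {A : M2 k}
    (h : A * A - (2 : k) • A + (1 : k) • 1 = 0) : A.trace = 2 ∧ A.det = 1 := by
  have h0 : (A - 1) * (A - 1) = 0 := by
    rw [← h, two_smul, one_smul]
    noncomm_ring
  have ht : (A - 1).trace = 0 :=
    (Matrix.isNilpotent_trace_of_isNilpotent ⟨2, by rw [pow_two, h0]⟩).eq_zero
  have hd : (A - 1).det = 0 := by
    have h2 := congrArg Matrix.det h0
    rw [Matrix.det_mul, Matrix.det_zero] at h2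
    exact mul_self_eq_zero.mp h2
  rw [Matrix.trace_sub, Matrix.trace_one, Fintype.card_fin, sub_eq_zero] at ht
  push_cast at ht
  refine ⟨ht, ?_⟩
  rw [det_sub_one, ht] at hd
  linear_combination hd

variable {p : ℕ} [Fact p.Prime] (S : Sys p)

/-- A residually modular representation is residually unipotent on inertia where the system is. -/
theorem residual_inertia {O : Type} [CommRing O] [IsLocalRing O] (hpO : (p : O) ∈ maximalIdeal O)
    {r : GG →* M2 O} (hr : Deformation.MatCts r)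
    (hfrob : ∀ l : ℕ, l.Prime → l ∉ S.bad → ∀ V : ValuationSubring QA, V.LiesOverPrime l →
      ∀ τ : GG, V.IsFrobeniusAt τ l → ∃ a : O, r τ * r τ - a • r τ + (l : O) • 1 = 0 ∧
        a - ((S.tr τ).val : O) ∈ maximalIdeal O)
    {q : ℕ} (hU : S.UnipotentAt q) {V : ValuationSubring QA} (hV : V.LiesOverPrime q) {σ : GG}
    (hσ : σ ∈ V.inertiaSubgroupIn ℚ) :
    (r σ).trace - 2 ∈ maximalIdeal O ∧ (r σ).det - 1 ∈ maximalIdeal O := by
  haveI : NeZero p := ⟨(Fact.out : p.Prime).ne_zero⟩
  haveI : CharP (ResidueField O) p := (CharP.charP_iff_prime_eq_zero Fact.out).mpr (by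
    rw [← map_natCast (residue O)]; exact (residue_eq_zero_iff _).2 hpO)
  set κ : ZMod p →+* ResidueField O := ZMod.castHom dvd_rfl _
  set rk : GG →* M2 (ResidueField O) := (residue O).mapMatrix.toMonoidHom.comp r
  set f : GG →* Module.End (ResidueField O) (Fin 2 → ResidueField O) :=
    (Matrix.toLinAlgEquiv' (R := ResidueField O) (n := Fin 2)).toMonoidHom.comp
      (κ.mapMatrix.toMonoidHom.comp ((Units.coeHom _).comp S.rb)) with hfdef
  have hft : ∀ g : GG, LinearMap.trace (ResidueField O) _ (f g) = κ (S.tr g) := fun g => by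
    rw [show f g = Matrix.toLin' ((S.rb g : M2 (ZMod p)).map κ) from rfl,
      Matrix.trace_toLin'_eq, Matrix.trace_fin_two, Sys.tr, Matrix.trace_fin_two, map_add]
    rfl
  have hfd : ∀ g : GG, LinearMap.det (f g) = κ (Matrix.det (S.rb g : M2 (ZMod p))) := fun g => by
    rw [show f g = Matrix.toLin' ((S.rb g : M2 (ZMod p)).map κ) from rfl, LinearMap.det_toLin']
    exact (κ.map_det _).symm
  obtain ⟨L₁, hL₁, h1⟩ := S.level
  obtain ⟨L₂, hL₂, h2⟩ := hr 1
  haveI := hL₁
  haveI := hL₂
  obtain ⟨l, A, τ, k, hl, hlb, hA, hτ, hg⟩ :=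
    Frobenius.exists_frobenius_pow_eqOn (L₁ ⊔ L₂) σ S.bad
  have hfix : ∀ x ∈ L₁ ⊔ L₂, ((τ ^ k)⁻¹ * σ) x = x := fun x hx => by
    rw [AlgEquiv.mul_apply, hg x hx]
    exact (τ ^ k).symm_apply_apply x
  have e1 : rk σ = rk τ ^ k := by
    have hone : rk ((τ ^ k)⁻¹ * σ) = 1 := by
      show (r _).map (residue O) = 1
      rw [← Matrix.map_one (residue O) (map_zero _) (map_one _)]
      ext i j
      rw [Matrix.map_apply, Matrix.map_apply, ← sub_eq_zero, ← map_sub, residue_eq_zero_iff,
        ← Matrix.sub_apply, ← pow_one (maximalIdeal O)]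
      exact h2 _ (fun y hy => hfix y ((le_sup_right : L₂ ≤ L₁ ⊔ L₂) hy)) i j
    conv_lhs => rw [← mul_inv_cancel_left (τ ^ k) σ, map_mul, hone, mul_one, map_pow]
  have e2 : f σ = f τ ^ k := by
    have hone : f ((τ ^ k)⁻¹ * σ) = 1 := by
      rw [hfdef, MonoidHom.comp_apply, MonoidHom.comp_apply, MonoidHom.comp_apply,
        h1 _ (fun y hy => hfix y ((le_sup_left : L₁ ≤ L₁ ⊔ L₂) hy)), map_one, map_one, map_one]
    conv_lhs => rw [← mul_inv_cancel_left (τ ^ k) σ, map_mul, hone, mul_one, map_pow]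
  have hlp : l ≠ p := fun e => hlb (e ▸ S.p_mem)
  obtain ⟨a, ha, hatr⟩ := hfrob l hl hlb A hA τ hτ
  have hares : residue O a = κ (S.tr τ) := by
    rw [← sub_eq_zero, ← ZMod.natCast_zmod_val (S.tr τ), map_natCast, ← map_natCast (residue O),
      ← map_sub, residue_eq_zero_iff]
    exact hatr
  have hquad : rk τ * rk τ - LinearMap.trace (ResidueField O) _ (f τ) • rk τ +
      LinearMap.det (f τ) • 1 = 0 := by
    rw [hft, hfd, ← hares, S.det_frobenius hl hlp hA hτ, map_natCast]
    have h := congrArg (fun X : M2 O => X.map (residue O)) ha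
    ext i j
    have h' := congrFun (congrFun h i) j
    simpa [rk, Matrix.mul_apply, Matrix.one_apply, apply_ite (residue O)] using h'
  have h := MazurPrinciple.pow_relation (k := ResidueField O) (by simp) (f τ) (rk τ) hquad k
  rw [← e1, ← e2, hft, hfd] at h
  obtain ⟨hst, hsd⟩ := hU V hV σ hσ
  rw [show S.tr σ = 2 from hst, hsd, map_ofNat, map_one] at h
  obtain ⟨ht, hd⟩ := trace_det_of_sq_eq h
  constructor <;> rw [← residue_eq_zero_iff, map_sub, sub_eq_zero]
  · rw [map_ofNat, ← ht, Matrix.trace_fin_two, Matrix.trace_fin_two, map_add]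
    rfl
  · rw [map_one, ← hd]
    exact (residue O).map_det _

/-- A representation with the Frobenius relations of the system is unipotent on inertia at `q`. -/
theorem isUnipotentOnInertiaAt_of_frobenius {O : Type} [CommRing O] [IsLocalRing O]
    [IsNoetherianRing O] [Finite (ResidueField O)] [IsHausdorff (maximalIdeal O) O]
    (hpO : (p : O) ∈ maximalIdeal O) (ρ : GaloisRepAdic O)
    (bs : Module.Basis (Fin 2) O ρ.V)
    (hfrob : ∀ l : ℕ, l.Prime → l ∉ S.bad → ∀ V : ValuationSubring QA, V.LiesOverPrime l →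
      ∀ τ : GG, V.IsFrobeniusAt τ l → ∃ a : O, ρ.ρ τ * ρ.ρ τ - a • ρ.ρ τ + (l : O) • 1 = 0 ∧
        a - ((S.tr τ).val : O) ∈ maximalIdeal O)
    {q : ℕ} (hq : q.Prime) (hqp : q ≠ p) (h1 : ¬ p ∣ q + 1) (h2 : ¬ p ∣ q - 1)
    (hU : S.UnipotentAt q) : ρ.IsUnipotentOnInertiaAt q := by
  intro P hP σ hσ
  have hfrob' : ∀ l : ℕ, l.Prime → l ∉ S.bad → ∀ V : ValuationSubring QA, V.LiesOverPrime l →
      ∀ τ : GG, V.IsFrobeniusAt τ l → ∃ a : O, Deformation.matOf ρ bs τ * Deformation.matOf ρ bs τ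
        - a • Deformation.matOf ρ bs τ + (l : O) • 1 = 0 ∧
        a - ((S.tr τ).val : O) ∈ maximalIdeal O := by
    intro l hl hlb V hV τ hτ
    obtain ⟨a, ha, ha'⟩ := hfrob l hl hlb V hV τ hτ
    have h := congrArg (LinearMap.toMatrixAlgEquiv bs) ha
    rw [map_add, map_sub, map_mul, map_smul, map_smul, map_one, map_zero] at h
    exact ⟨a, h, ha'⟩
  obtain ⟨ht, hd⟩ := trace_det_inertia hpO (Deformation.matCts_matOf ρ bs) hq hqp h1 h2 hP
    (fun s hs => residual_inertia S hpO (Deformation.matCts_matOf ρ bs) hfrob' hU hP hs) hσ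
  rw [Frobenius.charpoly_eq_charpoly_matOf ρ bs, Matrix.charpoly_fin_two, ht, hd]
  simp only [map_ofNat, map_one]
  ring

/-- **Lowering `q²` for the other primes.** -/
theorem targetLowerSqOther : TargetLowerSqOther := by
  intro p _ S q M hp2 hq hqp hM hqM hU hbad h1 h2 hseen
  haveI : Fact q.Prime := ⟨hq⟩
  haveI : NeZero p := ⟨(Fact.out : p.Prime).ne_zero⟩
  haveI : NeZero (M * q) := ⟨mul_ne_zero hM.ne' hq.ne_zero⟩
  obtain ⟨hN0, θ, hθ⟩ := hseen
  haveI := hN0
  set N := M * q * q with hN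
  have hNbad : ∀ r : ℕ, r.Prime → r ∣ N → r ∈ S.bad := fun r hr h => by
    rcases hr.dvd_mul.1 h with h | h
    · exact hbad r hr h
    · exact hbad r hr (dvd_mul_of_dvd_right h M)
  refine ⟨1, squarefree_one, Nat.coprime_one_left _, Or.inl ?_⟩
  rw [Nat.primeFactors_one, Finset.union_empty, mul_one]
  -- lift the system to characteristic zero
  haveI := CuspForms.moduleFinite_heckeAlgebra N 2 (↑S.bad : Set ℕ)
  haveI := CuspForms.moduleFinite_heckeAlgebra N 2 (∅ : Set ℕ)
  obtain ⟨χ, 𝔪, h𝔪, hp𝔪, hχ⟩ := CuspForms.exists_lift_character θ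
  set χC : CuspForm.heckeAlgebra N 2 (↑S.bad : Set ℕ) →+* ℂ :=
    ((integralClosure ℤ ℂ).val.toRingHom).comp χ with hχC
  set inc : CuspForm.heckeAlgebra N 2 (↑S.bad : Set ℕ) →+* CuspForm.heckeAlgebra N 2 (∅ : Set ℕ) :=
    (Subalgebra.inclusion (CuspForm.heckeAlgebra_mono (Set.empty_subset _))).toRingHom
  obtain ⟨χH, hχH⟩ := EigenLattice.exists_extend_hom inc χC
    (fun t ht => by
      rw [RingHom.mem_ker] at ht ⊢
      have : t = 0 := Subtype.ext (congrArg Subtype.val ht :)
      rw [this, map_zero])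
  obtain ⟨g, hg, hgc⟩ :=
    CuspForms.exists_eigenform_of_ringHom (CuspForms.hasIntegralStructure N 2) χH
  have hcoef : ∀ (l : ℕ) (hl : l.Prime) (hlN : ¬ l ∣ N) (hlb : l ∉ (↑S.bad : Set ℕ)),
      χC (CuspForm.heckeAlgebra.T hl hlN hlb) = ModularFormClass.qCoeff g l := by
    intro l hl hlN hlb
    rw [hgc l hl, CuspForms.heckeGen, dif_neg hlN]
    exact (hχH (CuspForm.heckeAlgebra.T hl hlN hlb)).symm
  -- the character modulo `p` on the values
  have hker : ∀ t, χC t = 0 → θ t = 0 := by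
    intro t ht
    have ht0 : χ t = 0 := Subtype.ext ht
    by_contra hne
    have hmem : θ (t - ((θ t).val : CuspForm.heckeAlgebra N 2 (↑S.bad : Set ℕ))) = 0 := by
      rw [map_sub, map_natCast, ZMod.natCast_zmod_val, sub_self]
    have h3 := hχ _ hmem
    rw [map_sub, ht0, zero_sub, neg_mem_iff, map_natCast] at h3
    have hcop : Nat.Coprime (θ t).val p :=
      ((Nat.Prime.coprime_iff_not_dvd Fact.out).2 (fun hd => hne (by
        rw [← ZMod.natCast_zmod_val (θ t)]; exact (ZMod.natCast_eq_zero_iff _ _).2 hd))).symm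
    obtain ⟨u, v, huv⟩ := Nat.isCoprime_iff_coprime.2 hcop
    refine (Ideal.ne_top_iff_one _).1 h𝔪.ne_top ?_
    have h4 := add_mem (𝔪.mul_mem_left (u : integralClosure ℤ ℂ) h3)
      (𝔪.mul_mem_left (v : integralClosure ℤ ℂ) hp𝔪)
    convert h4 using 1
    exact_mod_cast congrArg (Int.cast : ℤ → integralClosure ℤ ℂ) huv.symm
  set π : χC.range →+* ZMod p := χC.rangeRestrict.liftOfRightInverse
    (Function.surjInv χC.rangeRestrict_surjective) (Function.rightInverse_surjInv _)
    ⟨θ, fun t ht => RingHom.mem_ker.2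
      (hker t (congrArg Subtype.val (RingHom.mem_ker.1 ht)))⟩ with hπdef
  have hπ : ∀ t, π (χC.rangeRestrict t) = θ t := fun t =>
    RingHom.liftOfRightInverse_comp_apply _ _ _ _ t
  -- the newform
  have hex : ∃ M', M' ∣ N ∧ CuspForm.GoodEigensystemOccursAt g M' :=
    ⟨N, dvd_rfl, CuspForm.GoodEigensystemOccursAt.refl hg⟩
  set N₀ := Nat.find hex
  obtain ⟨hN₀, g', hg', hgg'⟩ := Nat.find_spec hex
  haveI : NeZero N₀ := ⟨fun h => NeZero.ne N (Nat.eq_zero_of_zero_dvd (h ▸ hN₀))⟩
  have hnew : g'.IsNewform := by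
    refine ⟨hg', fun M' hM' hne ⟨g'', hg'', hgg''⟩ => ?_⟩
    have hlt : M' < N₀ := lt_of_le_of_ne (Nat.le_of_dvd (Nat.pos_of_neZero N₀) hM') hne
    refine Nat.find_min hex hlt ⟨hM'.trans hN₀, g'', hg'', fun l hl hlN => ?_⟩
    exact (hgg'' l hl fun h => hlN (h.trans hN₀)).trans (hgg' l hl hlN)
  have hbN : ∀ l : ℕ, l.Prime → l ∉ (↑S.bad : Set ℕ) → ¬ l ∣ N := fun l hl hlb h =>
    hlb (hNbad l hl h)
  by_cases hdvd : N₀ ∣ M * q
  · -- the old form at level `M q`
    obtain ⟨ψ, hψ⟩ := exists_old_character hdvd hg' (↑S.bad : Set ℕ) fun r hr h => hbad r hr h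
    have hmem : ∀ t, ψ t ∈ χC.range := by
      rintro ⟨t, ht⟩
      induction ht using Algebra.adjoin_induction with
      | mem x hx =>
        rcases hx with ⟨l, hl, hlM, hlb, rfl⟩ | ⟨r, hrM, hr, hrb, rfl⟩
        · exact ⟨CuspForm.heckeAlgebra.T hl (hbN l hl hlb) hlb,
            (hcoef l hl _ hlb).trans ((hgg' l hl (hbN l hl hlb)).symm.trans
              (hψ l hl hlM hlb).symm)⟩
        · exact absurd (hbad r hr hrM) hrb
      | algebraMap c =>
        refine ⟨(c : CuspForm.heckeAlgebra N 2 (↑S.bad : Set ℕ)), ?_⟩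
        rw [map_intCast]
        exact (map_intCast ψ c).symm.trans (congrArg ψ (Subtype.ext (by simp)))
      | add x y hx hy ih ih' =>
        exact (map_add ψ ⟨x, hx⟩ ⟨y, hy⟩).symm ▸ add_mem ih ih'
      | mul x y hx hy ih ih' =>
        exact (map_mul ψ ⟨x, hx⟩ ⟨y, hy⟩).symm ▸ mul_mem ih ih'
    refine ⟨inferInstance, π.comp (ψ.codRestrict χC.range hmem), fun l hl hlM hlb V hV σ hσ => ?_⟩
    rw [RingHom.comp_apply, show ψ.codRestrict χC.range hmem (CuspForm.heckeAlgebra.T hl hlM hlb) =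
      χC.rangeRestrict (CuspForm.heckeAlgebra.T hl (hbN l hl hlb) hlb) from Subtype.ext
        ((hψ l hl hlM hlb).trans ((hgg' l hl (hbN l hl hlb)).trans
          (hcoef l hl (hbN l hl hlb) hlb).symm)), hπ]
    exact hθ l hl _ hlb V hV σ hσ
  · -- `q²` exactly divides the level of the newform
    exfalso
    have hfac : N₀.factorization q = 2 := by
      have hle : N₀.factorization ≤ N.factorization :=
        (Nat.factorization_le_iff_dvd (NeZero.ne N₀) (NeZero.ne N)).2 hN₀
      have hqN : N.factorization q = 2 := by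
        rw [hN, Nat.factorization_mul (mul_ne_zero hM.ne' hq.ne_zero) hq.ne_zero,
          Nat.factorization_mul hM.ne' hq.ne_zero, Finsupp.add_apply, Finsupp.add_apply,
          hq.factorization_self, Nat.factorization_eq_zero_of_not_dvd hqM]
      refine le_antisymm (hqN ▸ hle q) ?_
      by_contra hlt
      refine hdvd ((Nat.factorization_le_iff_dvd (NeZero.ne N₀) (NeZero.ne _)).1 fun r => ?_)
      rw [Nat.factorization_mul hM.ne' hq.ne_zero, Finsupp.add_apply]
      rcases eq_or_ne r q with rfl | hrq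
      · rw [hq.factorization_self]
        omega
      · refine (hle r).trans (le_of_eq ?_)
        rw [hN, Nat.factorization_mul (mul_ne_zero hM.ne' hq.ne_zero) hq.ne_zero,
          Nat.factorization_mul hM.ne' hq.ne_zero, Finsupp.add_apply, Finsupp.add_apply,
          hq.factorization, Finsupp.single_eq_of_ne hrq, add_zero]
    have hbad₀ : ∀ r : ℕ, r.Prime → r ∣ N₀ → r ∈ (↑S.bad : Set ℕ) := fun r hr h =>
      hNbad r hr (h.trans hN₀)
    haveI : Module.Finite ℤ χC.range := Module.Finite.of_surjective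
      χC.rangeRestrict.toIntAlgHom.toLinearMap χC.rangeRestrict_surjective
    obtain ⟨O, _, _, _, _, _, _, hpO, ι, hι⟩ := exists_padic_lift (p := p) π
    set chig := EigenReps.eigenCharAway hg' (↑S.bad : Set ℕ)
    have hchig : ∀ (l : ℕ) (hl : l.Prime) (hlN : ¬ l ∣ N₀) (hlb : l ∉ (↑S.bad : Set ℕ)),
        chig (CuspForm.heckeAlgebra.T hl hlN hlb) = ModularFormClass.qCoeff g' l :=
      fun l hl hlN hlb => EigenReps.coe_eigenCharInt_T hg' hl hlN hlb
    have hsub : chig.range ≤ χC.range := by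
      rintro _ ⟨⟨t, ht⟩, rfl⟩
      induction ht using Algebra.adjoin_induction with
      | mem x hx =>
        rcases hx with ⟨l, hl, hlM, hlb, rfl⟩ | ⟨r, hrM, hr, hrb, rfl⟩
        · exact ⟨CuspForm.heckeAlgebra.T hl (hbN l hl hlb) hlb,
            (hcoef l hl _ hlb).trans ((hgg' l hl (hbN l hl hlb)).symm.trans
              (hchig l hl hlM hlb).symm)⟩
        · exact absurd (hbad₀ r hr hrM) hrb
      | algebraMap c =>
        refine ⟨(c : CuspForm.heckeAlgebra N 2 (↑S.bad : Set ℕ)), ?_⟩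
        rw [map_intCast]
        exact (map_intCast chig c).symm.trans (congrArg chig (Subtype.ext (by simp)))
      | add x y hx hy ih ih' =>
        exact (map_add chig ⟨x, hx⟩ ⟨y, hy⟩).symm ▸ add_mem ih ih'
      | mul x y hx hy ih ih' =>
        exact (map_mul chig ⟨x, hx⟩ ⟨y, hy⟩).symm ▸ mul_mem ih ih'
    obtain ⟨O', _, _, _, _, _, _, _, _, hloc, -, F, hF⟩ := EigenLattice.exists_full_character
      hnew.1 O hbad₀ chig hchig (ι.comp (Subring.inclusion hsub))
    haveI := hloc
    have hpO' : (p : O') ∈ maximalIdeal O' := by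
      rw [← map_natCast (algebraMap O O')]
      exact map_nonunit (algebraMap O O') _ hpO
    set κ : AlgebraicClosure ℚ →+* ℂ := Kronecker.complexEmb
    set χ' := F.comp (CuspForms.eigenChar hnew.1).rangeRestrict with hχ'
    set ρ := EigenLattice.eigenRep N₀ p κ hpO' χ' with hρ
    obtain ⟨bs⟩ := Deformation.nonempty_basis ρ
    refine EigenLattice.not_isUnipotent_eigenRep
      (fun q M' _ _ h => Carayol.carayol_bound q M' h) hnew p κ hpO' F hq hqp hfac ?_
    refine isUnipotentOnInertiaAt_of_frobenius S hpO' ρ bs ?_ hq hqp h1 h2 hU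
    intro l hl hlb V hV τ hτ
    have hlb' : l ∉ (↑S.bad : Set ℕ) := hlb
    have hlN : ¬ l ∣ N₀ := fun h => hlb' (hbad₀ l hl h)
    refine ⟨χ' (CuspForms.heckeGen N₀ l hl), EigenLattice.eigenRep_frobenius N₀ p κ hpO' χ' hl hlN
        (fun e => hlb (e ▸ S.p_mem)) hV hτ, ?_⟩
    rw [hχ', RingHom.comp_apply, hF l hl hlN hlb', ← map_natCast (algebraMap O O'), ← map_sub]
    refine map_nonunit (algebraMap O O') _ ?_
    rw [RingHom.comp_apply, show Subring.inclusion hsub
          (chig.rangeRestrict (CuspForm.heckeAlgebra.T hl hlN hlb')) =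
          χC.rangeRestrict (CuspForm.heckeAlgebra.T hl (hbN l hl hlb') hlb') from Subtype.ext
            ((hchig l hl hlN hlb').trans ((hgg' l hl (hbN l hl hlb')).trans
              (hcoef l hl (hbN l hl hlb') hlb').symm)), ← map_natCast ι, ← map_sub]
    refine hι _ ?_
    rw [map_sub, map_natCast, hπ, hθ l hl _ hlb' V hV τ hτ, ZMod.natCast_zmod_val, sub_self]

end FLTAgent.Entry.Other
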